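import Fermat.Agent.WeylReducibility.Cohomology

/-!
# The Levi decomposition

A linear section of the quotient by the radical is corrected step by step along the derived series
of the radical, using Whitehead's second lemma.
-/

set_option autoImplicit false

noncomputable section

namespace FA.WeylReducibility

open LieAlgebra LieModule Module

attribute [local instance 100] LieRing.ofAssociativeRing

variable {K G : Type*} [Field K] [LieRing G] [LieAlgebra K G] [FiniteDimensional K G]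

/-- The projection to the quotient by an ideal, as a morphism of Lie algebras. -/
def quotientHom (I : LieIdeal K G) : G →ₗ⁅K⁆ G ⧸ I :=
  { (LieSubmodule.Quotient.mk' I).toLinearMap with map_lie' := fun {_ _} => rfl }

omit [FiniteDimensional K G] in
lemma quotientHom_surjective (I : LieIdeal K G) : Function.Surjective (quotientHom I) :=
  LieSubmodule.Quotient.surjective_mk' I

omit [FiniteDimensional K G] in
lemma quotientHom_eq_zero {I : LieIdeal K G} {x : G} : quotientHom I x = 0 ↔ x ∈ I :=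
  LieSubmodule.Quotient.mk_eq_zero (N := I)

instance finite_quotient (I : LieIdeal K G) : FiniteDimensional K (G ⧸ I) :=
  inferInstanceAs (FiniteDimensional K (G ⧸ I.toSubmodule))

/-- The quotient by the radical has trivial radical. -/
instance hasTrivialRadical_quotient : HasTrivialRadical K (G ⧸ radical K G) := by
  refine (hasTrivialRadical_iff_no_solvable_ideals K _).2 fun I hI => ?_
  set π := quotientHom (radical K G)
  obtain ⟨k, hk⟩ := IsSolvable.solvable K I
  obtain ⟨l, hl⟩ := IsSolvable.solvable K (radical K G)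
  rw [LieIdeal.derivedSeries_eq_bot_iff] at hk hl
  have hmap : ∀ (J : LieIdeal K G) (j : ℕ),
      (derivedSeriesOfIdeal K G j J).map π ≤ derivedSeriesOfIdeal K _ j (J.map π) := by
    intro J j
    induction j with
    | zero => simp
    | succ j ih =>
      simp only [derivedSeriesOfIdeal_succ]
      exact (LieIdeal.map_bracket_le π).trans (LieSubmodule.mono_lie ih ih)
  have h1 : derivedSeriesOfIdeal K G k (I.comap π) ≤ radical K G := by
    intro x hx
    have h := (hmap (I.comap π) k).trans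
      (derivedSeriesOfIdeal_mono (LieIdeal.map_comap_le (f := π) (J := I)) k)
    rw [hk] at h
    exact quotientHom_eq_zero.1 ((LieSubmodule.mem_bot _).1 (h (LieIdeal.mem_map hx)))
  have h2 : IsSolvable (I.comap π) := by
    refine IsSolvable.mk (R := K) (k := l + k) ?_
    rw [LieIdeal.derivedSeries_eq_bot_iff, derivedSeriesOfIdeal_add, eq_bot_iff, ← hl]
    exact derivedSeriesOfIdeal_mono h1 l
  rw [LieSubmodule.eq_bot_iff]
  intro y hy
  obtain ⟨x, rfl⟩ := quotientHom_surjective (radical K G) y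
  exact quotientHom_eq_zero.2 ((LieIdeal.solvable_iff_le_radical K G (I.comap π)).1 h2
    (LieIdeal.mem_comap.2 hy))

variable {S : Type*} [CharZero K] [LieRing S] [LieAlgebra K S] [FiniteDimensional K S]
  [HasTrivialRadical K S]

/-- A section which is multiplicative modulo `A` can be corrected modulo `B` when `A / B` is
abelian. -/
lemma exists_correction {A B : LieIdeal K G} (hAB : ⁅A, A⁆ ≤ B) (s : S →ₗ[K] G)
    (hs : ∀ x y, ⁅s x, s y⁆ - s ⁅x, y⁆ ∈ A) :
    ∃ s' : S →ₗ[K] G, (∀ x, s' x - s x ∈ A) ∧ ∀ x y, ⁅s' x, s' y⁆ - s' ⁅x, y⁆ ∈ B := by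
  let q := LieSubmodule.Quotient.mk' B
  let M : LieSubmodule K G (G ⧸ B) := LieSubmodule.map q A
  have hzero : ∀ a ∈ A, ∀ m : M, ⁅a, m⁆ = 0 := fun a ha ⟨m, hm⟩ => by
    obtain ⟨b, hb, rfl⟩ := (LieSubmodule.mem_map m).1 hm
    apply Subtype.ext
    show ⁅a, q b⁆ = 0
    rw [← LieModuleHom.map_lie]
    exact (LieSubmodule.Quotient.mk_eq_zero B).2 (hAB (LieSubmodule.lie_mem_lie ha hb))
  let φ : S →ₗ⁅K⁆ Module.End K M :=
    { (toEnd K G M).toLinearMap ∘ₗ s with
      map_lie' := fun {x y} => by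
        refine LinearMap.ext fun m => ?_
        change ⁅s ⁅x, y⁆, m⁆ = ⁅s x, ⁅s y, m⁆⁆ - ⁅s y, ⁅s x, m⁆⁆
        rw [← lie_lie, ← sub_eq_zero, ← sub_lie, ← neg_sub, neg_lie, hzero _ (hs x y), neg_zero] }
  let _ : LieRingModule S M := LieRingModule.compLieHom M φ
  have : LieModule K S M := LieModule.compLieHom M φ
  let qA : A →ₗ[K] M := (q.toLinearMap ∘ₗ A.toSubmodule.subtype).codRestrict M.toSubmodule
    fun a => LieSubmodule.mem_map_of_mem a.2
  have hqA : Function.Surjective qA := fun ⟨m, hm⟩ => by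
    obtain ⟨b, hb, rfl⟩ := (LieSubmodule.mem_map m).1 hm
    exact ⟨⟨b, hb⟩, rfl⟩
  obtain ⟨σ, hσ⟩ := LinearMap.exists_rightInverse_of_surjective qA
    (LinearMap.range_eq_top.2 hqA)
  let d : S →ₗ[K] S →ₗ[K] A := LinearMap.mk₂ K (fun x y => ⟨⁅s x, s y⁆ - s ⁅x, y⁆, hs x y⟩)
    (fun x x' y => Subtype.ext (by simp; abel))
    (fun t x y => Subtype.ext (by simp [smul_sub]))
    (fun x y y' => Subtype.ext (by simp; abel))
    (fun t x y => Subtype.ext (by simp [smul_sub]))
  let ω : S →ₗ[K] S →ₗ[K] M := d.compr₂ qA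
  obtain ⟨f, hf⟩ := exists_coboundary_of_cocycle ω
    (fun x => by
      show qA (d x x) = 0
      rw [show d x x = 0 from Subtype.ext (by simp [d]), map_zero]) fun x y z => Subtype.ext (by
      have h0 : ∀ u v w : G, ⁅⁅u, v⁆, w⁆ + ⁅⁅v, w⁆, u⁆ + ⁅⁅w, u⁆, v⁆ = 0 := fun u v w => by
        rw [← lie_skew ⁅u, v⁆ w, ← lie_skew ⁅v, w⁆ u, ← lie_skew ⁅w, u⁆ v]
        linear_combination (norm := abel) -(lie_jacobi u v w)
      have hS : s ⁅⁅x, y⁆, z⁆ + s ⁅⁅y, z⁆, x⁆ + s ⁅⁅z, x⁆, y⁆ = 0 := by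
        rw [← map_add, ← map_add]
        rw [show ⁅⁅x, y⁆, z⁆ + ⁅⁅y, z⁆, x⁆ + ⁅⁅z, x⁆, y⁆ = 0 by
          rw [← lie_skew ⁅x, y⁆ z, ← lie_skew ⁅y, z⁆ x, ← lie_skew ⁅z, x⁆ y]
          linear_combination (norm := abel) -(lie_jacobi x y z), map_zero]
      change ⁅s x, q (⁅s y, s z⁆ - s ⁅y, z⁆)⁆ + ⁅s y, q (⁅s z, s x⁆ - s ⁅z, x⁆)⁆ +
          ⁅s z, q (⁅s x, s y⁆ - s ⁅x, y⁆)⁆ =
        q (⁅s ⁅x, y⁆, s z⁆ - s ⁅⁅x, y⁆, z⁆) + q (⁅s ⁅y, z⁆, s x⁆ - s ⁅⁅y, z⁆, x⁆) +
          q (⁅s ⁅z, x⁆, s y⁆ - s ⁅⁅z, x⁆, y⁆)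
      simp only [← LieModuleHom.map_lie, ← map_add]
      congr 1
      simp only [lie_sub, ← lie_skew (s ⁅x, y⁆) (s z), ← lie_skew (s ⁅y, z⁆) (s x),
        ← lie_skew (s ⁅z, x⁆) (s y)]
      linear_combination (norm := abel) lie_jacobi (s x) (s y) (s z) + hS)
  let g : S →ₗ[K] G := A.toSubmodule.subtype ∘ₗ σ ∘ₗ f
  have hg : ∀ x, g x ∈ A := fun x => (σ (f x)).2
  have hgf : ∀ x, q (g x) = (f x : G ⧸ B) := fun x =>
    congrArg Subtype.val (LinearMap.congr_fun hσ (f x))
  refine ⟨s - g, fun x => by simpa using A.neg_mem (hg x), fun x y => ?_⟩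
  have he : q (⁅s x, s y⁆ - s ⁅x, y⁆) = ⁅s x, q (g y)⁆ - ⁅s y, q (g x)⁆ - q (g ⁅x, y⁆) := by
    rw [hgf, hgf, hgf]
    exact congrArg Subtype.val (LinearMap.congr_fun₂ hf x y)
  rw [← LieModuleHom.map_lie, ← LieModuleHom.map_lie, ← map_sub, ← map_sub,
    ← sub_eq_zero, ← map_sub] at he
  have h1 := (LieSubmodule.Quotient.mk_eq_zero B).1 he
  have h3 := add_mem h1 (hAB (LieSubmodule.lie_mem_lie (hg x) (hg y)))
  have e : ⁅(s - g) x, (s - g) y⁆ - (s - g) ⁅x, y⁆ =
      ⁅s x, s y⁆ - s ⁅x, y⁆ - (⁅s x, g y⁆ - ⁅s y, g x⁆ - g ⁅x, y⁆) + ⁅g x, g y⁆ := by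
    simp only [LinearMap.sub_apply, sub_lie, lie_sub, ← lie_skew (g x) (s y)]
    abel
  rw [e]
  exact h3

omit [FiniteDimensional K S] [HasTrivialRadical K S] [CharZero K] in
/-- Semisimplicity transfers along bijective morphisms. -/
lemma hasTrivialRadical_of_bijective {T : Type*} [LieRing T] [LieAlgebra K T]
    [HasTrivialRadical K S] (e : S →ₗ⁅K⁆ T) (he : Function.Bijective e) :
    HasTrivialRadical K T := by
  refine (hasTrivialRadical_iff_no_solvable_ideals K _).2 fun I hI => ?_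
  let r : I.comap e →ₗ⁅K⁆ I :=
    { toFun := fun j => ⟨e j.1, j.2⟩
      map_add' := fun a b => Subtype.ext (map_add e a.1 b.1)
      map_smul' := fun t a => Subtype.ext (map_smul e t a.1)
      map_lie' := fun {a b} => Subtype.ext (LieHom.map_lie e a.1 b.1) }
  have : IsSolvable (I.comap e) := Function.Injective.lieAlgebra_isSolvable (f := r)
    fun a b h => Subtype.ext (he.1 (congrArg Subtype.val h))
  rw [LieSubmodule.eq_bot_iff]
  intro y hy
  obtain ⟨x, rfl⟩ := he.2 y
  have hx : x ∈ I.comap e := LieIdeal.mem_comap.2 hy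
  rw [HasTrivialRadical.eq_bot_of_isSolvable (R := K) (L := S) (I.comap e),
    LieSubmodule.mem_bot] at hx
  simp [hx]

omit S in
/-- The Levi decomposition. -/
theorem exists_levi_subalgebra :
    ∃ T : LieSubalgebra K G, IsCompl T.toSubmodule (radical K G).toSubmodule ∧
      HasTrivialRadical K T := by
  set R := radical K G
  set π := quotientHom R
  have key : ∀ k, ∃ s : (G ⧸ R) →ₗ[K] G, (∀ x, π (s x) = x) ∧
      ∀ x y, ⁅s x, s y⁆ - s ⁅x, y⁆ ∈ derivedSeriesOfIdeal K G k R := by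
    intro k
    induction k with
    | zero =>
      obtain ⟨s, hs⟩ := LinearMap.exists_rightInverse_of_surjective π.toLinearMap
        (LinearMap.range_eq_top.2 (quotientHom_surjective R))
      have hs' : ∀ x, π (s x) = x := fun x => LinearMap.congr_fun hs x
      refine ⟨s, hs', fun x y => quotientHom_eq_zero.1 ?_⟩
      show π _ = 0
      rw [map_sub, LieHom.map_lie, hs', hs', hs', sub_self]
    | succ k ih =>
      obtain ⟨s, hs, hd⟩ := ih
      obtain ⟨s', h1, h2⟩ := exists_correction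
        (B := derivedSeriesOfIdeal K G (k + 1) R) (derivedSeriesOfIdeal_succ ..).ge s hd
      refine ⟨s', fun x => ?_, h2⟩
      have h := quotientHom_eq_zero.2 (derivedSeriesOfIdeal_le_self R k (h1 x))
      rwa [map_sub, hs, sub_eq_zero] at h
  obtain ⟨k, hk⟩ := IsSolvable.solvable K R
  rw [LieIdeal.derivedSeries_eq_bot_iff] at hk
  obtain ⟨s, hs, hd⟩ := key k
  have hlie : ∀ x y, s ⁅x, y⁆ = ⁅s x, s y⁆ := fun x y => by
    have h := hd x y
    rw [hk, LieSubmodule.mem_bot, sub_eq_zero] at h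
    exact h.symm
  let sh : (G ⧸ R) →ₗ⁅K⁆ G := { s with map_lie' := fun {x y} => hlie x y }
  refine ⟨sh.range, ?_, hasTrivialRadical_of_bijective sh.rangeRestrict
    ⟨fun a b h => ?_, sh.surjective_rangeRestrict⟩⟩
  · constructor
    · rw [Submodule.disjoint_def]
      rintro _ ⟨x, rfl⟩ hx
      have h := quotientHom_eq_zero.2 hx
      change π (s x) = 0 at h
      show s x = 0
      rw [hs] at h
      rw [h, map_zero]
    · rw [codisjoint_iff, Submodule.eq_top_iff']
      intro g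
      refine Submodule.mem_sup.2 ⟨s (π g), ⟨π g, rfl⟩, g - s (π g), quotientHom_eq_zero.1 ?_,
        add_sub_cancel _ _⟩
      show π _ = 0
      rw [map_sub, hs, sub_self]
  · have h' : s a = s b := congrArg Subtype.val h
    rw [← hs a, ← hs b, h']

end FA.WeylReducibility
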