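import Fermat.Agent.WeylReducibility.Casimir

/-!
# Whitehead's lemmas and complete reducibility

Every one and two cocycle of a semisimple Lie algebra with values in a finite dimensional module is a
coboundary (Whitehead), hence every such module is completely reducible (Weyl).
-/

set_option autoImplicit false

noncomputable section

namespace FA.WeylReducibility

open LieAlgebra LieModule Module

attribute [local instance 100] LieRing.ofAssociativeRing

universe v

variable {K L : Type*} [Field K] [LieRing L] [LieAlgebra K L]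

section Reduction

variable {M : Type*} [AddCommGroup M] [Module K M] [LieRingModule L M] [LieModule K L M]
  [FiniteDimensional K M]

omit [LieAlgebra K L] [LieModule K L M] [FiniteDimensional K M] in
variable (K L M) in
/-- A module is zero, irreducible, or has a proper nonzero submodule. -/
lemma module_cases : Subsingleton M ∨ LieModule.IsIrreducible K L M ∨
    ∃ N : LieSubmodule K L M, N ≠ ⊥ ∧ N ≠ ⊤ := by
  rcases subsingleton_or_nontrivial M with h | h
  · exact Or.inl h
  · by_cases hN : ∀ N : LieSubmodule K L M, N ≠ ⊥ → N = ⊤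
    · exact Or.inr (Or.inl (LieModule.IsIrreducible.mk hN))
    · push Not at hN
      exact Or.inr (Or.inr hN)

omit [LieAlgebra K L] [LieModule K L M] in
lemma finrank_sub_lt {N : LieSubmodule K L M} (h : N ≠ ⊤) : finrank K N < finrank K M :=
  Submodule.finrank_lt fun e => h ((LieSubmodule.toSubmodule_eq_top N).1 e)

omit [LieAlgebra K L] [LieModule K L M] in
lemma finrank_quot_lt {N : LieSubmodule K L M} (h : N ≠ ⊥) :
    finrank K (M ⧸ N) < finrank K M := by
  have h1 := N.toSubmodule.finrank_quotient_add_finrank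
  have h2 : finrank K N.toSubmodule ≠ 0 := fun e =>
    h ((LieSubmodule.toSubmodule_eq_bot N).1 (Submodule.finrank_eq_zero.1 e))
  change finrank K (M ⧸ N.toSubmodule) < _
  omega

instance finite_quot (N : LieSubmodule K L M) : FiniteDimensional K (M ⧸ N) :=
  inferInstanceAs (FiniteDimensional K (M ⧸ N.toSubmodule))

end Reduction

variable [CharZero K] [FiniteDimensional K L] [HasTrivialRadical K L]

lemma h1_aux (n : ℕ) : ∀ (M : Type v) [AddCommGroup M] [Module K M] [LieRingModule L M]
    [LieModule K L M] [FiniteDimensional K M], finrank K M ≤ n → ∀ f : L →ₗ[K] M,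
    (∀ x y : L, f ⁅x, y⁆ = ⁅x, f y⁆ - ⁅y, f x⁆) → ∃ m : M, ∀ x, f x = ⁅x, m⁆ := by
  induction n using Nat.strong_induction_on with
  | _ n ih =>
    intro M _ _ _ _ _ hn f hf
    rcases module_cases K L M with hM | hM | ⟨N, hbot, htop⟩
    · exact ⟨0, fun x => Subsingleton.elim _ _⟩
    · by_cases hne : ∃ (x : L) (m : M), ⁅x, m⁆ ≠ 0
      · obtain ⟨ι, _, a, c, C, hC, hinv, hcomm⟩ := exists_casimir (K := K) hne
        refine ⟨C.symm (∑ i, ⁅a i, f (c i)⁆), fun x => C.injective ?_⟩
        rw [← hcomm, C.apply_symm_apply, hC, lie_sum, eq_comm, ← sub_eq_zero,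
          ← Finset.sum_sub_distrib]
        let Φ : L →ₗ[K] L →ₗ[K] M := LinearMap.mk₂ K (fun u v => ⁅u, f v⁆)
          (fun u u' v => add_lie u u' _) (fun t u v => smul_lie t u _)
          (fun u v v' => by rw [map_add, lie_add]) (fun t u v => by rw [map_smul, lie_smul])
        refine Eq.trans (Finset.sum_congr rfl fun i _ => ?_) (hinv Φ x)
        simp only [Φ, LinearMap.mk₂_apply]
        rw [leibniz_lie x (a i), hf x (c i), lie_sub]
        abel
      · push Not at hne
        exact ⟨0, fun x => by simp [eq_zero_of_bracket (f := f) fun x y => by rw [hf, hne, hne, sub_zero]]⟩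
    · let π := LieSubmodule.Quotient.mk' N
      obtain ⟨q, hq⟩ := ih _ ((finrank_quot_lt hbot).trans_le hn) (M ⧸ N) le_rfl
        (π.toLinearMap ∘ₗ f) fun x y => by
          show π (f ⁅x, y⁆) = ⁅x, π (f y)⁆ - ⁅y, π (f x)⁆
          rw [hf, map_sub, LieModuleHom.map_lie, LieModuleHom.map_lie]
      obtain ⟨m, rfl⟩ := LieSubmodule.Quotient.surjective_mk' N q
      have hmem : ∀ x, f x - ⁅x, m⁆ ∈ N := fun x => by
        rw [← LieSubmodule.Quotient.mk_eq_zero, map_sub, LieModuleHom.map_lie]
        exact sub_eq_zero.2 (hq x)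
      let g : L →ₗ[K] N := LinearMap.codRestrict N.toSubmodule
        (f - (toEnd K L M).toLinearMap.flip m) hmem
      obtain ⟨m', hm'⟩ := ih _ ((finrank_sub_lt htop).trans_le hn) N le_rfl g fun x y => by
        apply Subtype.ext
        show f ⁅x, y⁆ - ⁅⁅x, y⁆, m⁆ = ⁅x, f y - ⁅y, m⁆⁆ - ⁅y, f x - ⁅x, m⁆⁆
        rw [hf, lie_lie, lie_sub, lie_sub]
        abel
      refine ⟨m + m', fun x => ?_⟩
      have h : f x - ⁅x, m⁆ = ⁅x, (m' : M)⁆ := congrArg Subtype.val (hm' x)
      rw [lie_add, ← h]
      abel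

variable {M : Type*} [AddCommGroup M] [Module K M] [LieRingModule L M] [LieModule K L M]
  [FiniteDimensional K M]

/-- Whitehead's first lemma. -/
theorem exists_lie_eq_of_cocycle (f : L →ₗ[K] M)
    (hf : ∀ x y : L, f ⁅x, y⁆ = ⁅x, f y⁆ - ⁅y, f x⁆) : ∃ m : M, ∀ x, f x = ⁅x, m⁆ :=
  h1_aux _ M le_rfl f hf

/-- Every submodule is a direct summand. -/
theorem exists_isCompl_lieSubmodule (N : LieSubmodule K L M) :
    ∃ N' : LieSubmodule K L M, IsCompl N N' := by
  obtain ⟨p₀, hp₀⟩ := LinearMap.exists_leftInverse_of_injective N.toSubmodule.subtype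
    N.toSubmodule.ker_subtype
  let p : M →ₗ[K] N := p₀
  have hp : ∀ n : N, p n = n := fun n => LinearMap.congr_fun hp₀ n
  let W : LieSubmodule K L (M →ₗ[K] N) :=
    { carrier := {φ | ∀ n : N, φ n = 0}
      add_mem' := fun h h' n => by simp [h n, h' n]
      zero_mem' := fun n => by simp
      smul_mem' := fun t φ h n => by simp [h n]
      lie_mem := fun {x φ} h n => by
        rw [LieHom.lie_apply, h n, lie_zero, ← LieSubmodule.coe_bracket, h, sub_zero] }
  let P : L →ₗ[K] M →ₗ[K] N := (toEnd K L (M →ₗ[K] N)).toLinearMap.flip p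
  have hP : ∀ x, P x ∈ W := fun x n => by
    show ⁅x, p⁆ (n : M) = 0
    rw [LieHom.lie_apply, hp, ← LieSubmodule.coe_bracket, hp, sub_self]
  let g : L →ₗ[K] W := LinearMap.codRestrict W.toSubmodule P hP
  obtain ⟨φ, hφ⟩ := exists_lie_eq_of_cocycle g fun x y => Subtype.ext (lie_lie x y p)
  have hfix : ∀ n : N, (p - (φ : M →ₗ[K] N)) n = n := fun n => by simp [hp, φ.2 n]
  have heq : ∀ (x : L) (m : M),
      (p - (φ : M →ₗ[K] N)) ⁅x, m⁆ = ⁅x, (p - (φ : M →ₗ[K] N)) m⁆ := fun x m => by
    have h : ⁅x, p⁆ = ⁅x, (φ : M →ₗ[K] N)⁆ := congrArg Subtype.val (hφ x)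
    have h' := LinearMap.congr_fun h m
    rw [LieHom.lie_apply, LieHom.lie_apply, sub_eq_sub_iff_sub_eq_sub] at h'
    simp [lie_sub, h']
  let N' : LieSubmodule K L M :=
    { toSubmodule := LinearMap.ker (p - (φ : M →ₗ[K] N))
      lie_mem := fun {x m} hm => by
        change (p - (φ : M →ₗ[K] N)) ⁅x, m⁆ = 0
        rw [heq, show (p - (φ : M →ₗ[K] N)) m = 0 from hm, lie_zero] }
  exact ⟨N', LieSubmodule.isCompl_toSubmodule.1 (LinearMap.isCompl_of_proj hfix)⟩

/-- The coboundary of a linear map. -/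
def coboundary (f : L →ₗ[K] M) : L →ₗ[K] L →ₗ[K] M :=
  LinearMap.mk₂ K (fun x y => ⁅x, f y⁆ - ⁅y, f x⁆ - f ⁅x, y⁆)
    (fun x x' y => by simp only [add_lie, lie_add, map_add]; abel)
    (fun t x y => by simp [smul_sub])
    (fun x y y' => by simp only [add_lie, lie_add, map_add]; abel)
    (fun t x y => by simp [smul_sub])

omit [CharZero K] [FiniteDimensional K L] [HasTrivialRadical K L] [FiniteDimensional K M] in
@[simp] lemma coboundary_apply (f : L →ₗ[K] M) (x y : L) :
    coboundary f x y = ⁅x, f y⁆ - ⁅y, f x⁆ - f ⁅x, y⁆ := rfl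

omit [CharZero K] [FiniteDimensional K L] [HasTrivialRadical K L] [FiniteDimensional K M] in
lemma coboundary_cocycle (f : L →ₗ[K] M) (x y z : L) :
    ⁅x, coboundary f y z⁆ + ⁅y, coboundary f z x⁆ + ⁅z, coboundary f x y⁆ =
      coboundary f ⁅x, y⁆ z + coboundary f ⁅y, z⁆ x + coboundary f ⁅z, x⁆ y := by
  have hJ : f ⁅⁅x, y⁆, z⁆ + f ⁅⁅y, z⁆, x⁆ + f ⁅⁅z, x⁆, y⁆ = 0 := by
    have h0 : ⁅⁅x, y⁆, z⁆ + ⁅⁅y, z⁆, x⁆ + ⁅⁅z, x⁆, y⁆ = 0 := by
      rw [← lie_skew ⁅x, y⁆ z, ← lie_skew ⁅y, z⁆ x, ← lie_skew ⁅z, x⁆ y]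
      linear_combination (norm := abel) -(lie_jacobi x y z)
    rw [← map_add, ← map_add, h0, map_zero]
  rw [← sub_eq_zero, ← hJ]
  simp only [coboundary_apply, lie_sub, lie_lie]
  abel

lemma h2_aux (n : ℕ) : ∀ (M : Type v) [AddCommGroup M] [Module K M] [LieRingModule L M]
    [LieModule K L M] [FiniteDimensional K M], finrank K M ≤ n → ∀ ω : L →ₗ[K] L →ₗ[K] M,
    (∀ x, ω x x = 0) →
    (∀ x y z : L, ⁅x, ω y z⁆ + ⁅y, ω z x⁆ + ⁅z, ω x y⁆ =
      ω ⁅x, y⁆ z + ω ⁅y, z⁆ x + ω ⁅z, x⁆ y) →
    ∃ f : L →ₗ[K] M, ω = coboundary f := by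
  induction n using Nat.strong_induction_on with
  | _ n ih =>
    intro M _ _ _ _ _ hn ω hω hcyc
    have hskew : ∀ x y, ω x y = -ω y x := fun x y => by
      have := hω (x + y)
      simp [hω] at this
      linear_combination (norm := abel) this
    rcases module_cases K L M with hM | hM | ⟨N, hbot, htop⟩
    · exact ⟨0, LinearMap.ext fun x => LinearMap.ext fun y => Subsingleton.elim _ _⟩
    · by_cases hne : ∃ (x : L) (m : M), ⁅x, m⁆ ≠ 0
      · obtain ⟨ι, _, a, c, C, hC, hinv, hcomm⟩ := exists_casimir (K := K) hne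
        let h : L →ₗ[K] M := ∑ i, toEnd K L M (a i) ∘ₗ ω (c i)
        have hh : ∀ x, h x = ∑ i, ⁅a i, ω (c i) x⁆ := fun x => by simp [h, LinearMap.sum_apply]
        have hlie : ∀ x y, ⁅x, h y⁆ = ∑ i, ⁅a i, ω ⁅c i, x⁆ y + ⁅x, ω (c i) y⁆⁆ := fun x y => by
          rw [hh, lie_sum, ← sub_eq_zero, ← Finset.sum_sub_distrib]
          let Φ : L →ₗ[K] L →ₗ[K] M := LinearMap.mk₂ K (fun u v => ⁅u, ω v y⁆)
            (fun u u' v => add_lie u u' _) (fun t u v => smul_lie t u _)
            (fun u v v' => by simp) (fun t u v => by simp)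
          refine Eq.trans (Finset.sum_congr rfl fun i _ => ?_) (hinv Φ x)
          simp only [Φ, LinearMap.mk₂_apply]
          rw [leibniz_lie x (a i), lie_add, ← lie_skew (c i) x, map_neg, LinearMap.neg_apply,
            lie_neg]
          abel
        refine ⟨C.symm.toLinearMap ∘ₗ h, ?_⟩
        ext x y
        apply C.injective
        simp only [coboundary_apply, LinearMap.comp_apply, LinearEquiv.coe_coe, map_sub, ← hcomm,
          LinearEquiv.apply_symm_apply]
        rw [hlie, hlie, hh, hC, ← Finset.sum_sub_distrib, ← Finset.sum_sub_distrib]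
        refine Finset.sum_congr rfl fun i _ => ?_
        rw [← lie_sub, ← lie_sub]
        congr 1
        have e := hcyc (c i) x y
        rw [hskew y (c i), lie_neg, hskew ⁅x, y⁆ (c i), ← lie_skew y (c i), map_neg,
          LinearMap.neg_apply] at e
        linear_combination (norm := abel) e
      · push Not at hne
        obtain ⟨φ, hφ⟩ := exists_lie_eq_of_cocycle ω fun x y => by
          ext z
          simp only [LinearMap.sub_apply, LieHom.lie_apply, hne, zero_sub]
          have := hcyc x y z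
          simp only [hne, add_zero] at this
          rw [hskew y, hskew x, neg_neg, ← lie_skew x z, map_neg, LinearMap.neg_apply]
          linear_combination (norm := abel) -this
        refine ⟨φ, ?_⟩
        ext x y
        simp [hφ, hne]
    · let π := LieSubmodule.Quotient.mk' N
      obtain ⟨q, hq⟩ := ih _ ((finrank_quot_lt hbot).trans_le hn) (M ⧸ N) le_rfl
        (ω.compr₂ π.toLinearMap) (fun x => by simp [hω])
        fun x y z => by
          have := congrArg π (hcyc x y z)
          simp only [map_add, LieModuleHom.map_lie] at this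
          exact this
      obtain ⟨σ, hσ⟩ := LinearMap.exists_rightInverse_of_surjective π.toLinearMap
        (LinearMap.range_eq_top.2 (LieSubmodule.Quotient.surjective_mk' N))
      let f := σ ∘ₗ q
      have hf : ∀ x, π (f x) = q x := fun x => LinearMap.congr_fun hσ (q x)
      have hmem : ∀ x y, ω x y - coboundary f x y ∈ N := fun x y => by
        rw [← LieSubmodule.Quotient.mk_eq_zero]
        show π _ = 0
        have : π (ω x y) = coboundary q x y := LinearMap.congr_fun₂ hq x y
        simp only [map_sub, coboundary_apply, LieModuleHom.map_lie, hf, this, sub_self]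
      let ω' : L →ₗ[K] L →ₗ[K] N := LinearMap.mk₂ K
        (fun x y => ⟨ω x y - coboundary f x y, hmem x y⟩)
        (fun x x' y => Subtype.ext (by simp; abel))
        (fun t x y => Subtype.ext (by simp [smul_sub]))
        (fun x y y' => Subtype.ext (by simp; abel))
        (fun t x y => Subtype.ext (by simp [smul_sub]))
      obtain ⟨f', hf'⟩ := ih _ ((finrank_sub_lt htop).trans_le hn) N le_rfl ω'
        (fun x => Subtype.ext (by simp [ω', hω])) fun x y z => Subtype.ext (by
          simp only [ω', LinearMap.mk₂_apply, LieSubmodule.coe_bracket,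
            LieSubmodule.coe_add, lie_sub]
          linear_combination (norm := abel) hcyc x y z - coboundary_cocycle f x y z)
      refine ⟨f + N.toSubmodule.subtype ∘ₗ f', ?_⟩
      ext x y
      have := congrArg Subtype.val (LinearMap.congr_fun₂ hf' x y)
      simp [ω'] at this
      simp
      linear_combination (norm := abel) this

/-- Whitehead's second lemma. -/
theorem exists_coboundary_of_cocycle (ω : L →ₗ[K] L →ₗ[K] M) (hω : ∀ x, ω x x = 0)
    (hcyc : ∀ x y z : L, ⁅x, ω y z⁆ + ⁅y, ω z x⁆ + ⁅z, ω x y⁆ =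
      ω ⁅x, y⁆ z + ω ⁅y, z⁆ x + ω ⁅z, x⁆ y) :
    ∃ f : L →ₗ[K] M, ω = coboundary f :=
  h2_aux _ M le_rfl ω hω hcyc

end FA.WeylReducibility
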