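import Mathlib

/-!
# The Casimir operator

Over a field of characteristic zero every ideal of a semisimple Lie algebra is perfect, so the trace
form of an irreducible module is nondegenerate on a complement of the annihilator, and a module with
nontrivial action carries an invertible Casimir operator.
-/

set_option autoImplicit false

noncomputable section

namespace FA.WeylReducibility

open LieAlgebra LieModule Module

attribute [local instance 100] LieRing.ofAssociativeRing

variable {K L : Type*} [Field K] [CharZero K] [LieRing L] [LieAlgebra K L] [FiniteDimensional K L]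
  [HasTrivialRadical K L]

/-- Every ideal of a semisimple Lie algebra is perfect. -/
lemma lie_self_eq (D : LieIdeal K L) : ⁅D, D⁆ = D := by
  have hle : ⁅D, D⁆ ≤ D := LieSubmodule.lie_le_right D D
  set D₁ : LieIdeal K L := ⁅D, D⁆
  have hc := D₁.isCompl_killingCompl
  have hab : IsLieAbelian (D ⊓ D₁.killingCompl : LieIdeal K L) := by
    rw [LieSubmodule.lie_abelian_iff_lie_self_eq_bot, eq_bot_iff, ← hc.inf_eq_bot]
    exact le_inf (LieSubmodule.mono_lie inf_le_left inf_le_left)
      ((LieSubmodule.lie_le_right _ _).trans inf_le_right)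
  have h0 : D ⊓ D₁.killingCompl = ⊥ := IsKilling.ideal_eq_bot_of_isLieAbelian _
  calc D₁ = D₁ ⊔ D₁.killingCompl ⊓ D := by rw [inf_comm, h0, sup_bot_eq]
    _ = (D₁ ⊔ D₁.killingCompl) ⊓ D := (sup_inf_assoc_of_le _ hle).symm
    _ = D := by rw [hc.sup_eq_top, top_inf_eq]

/-- The bracket map kills nothing but zero functionals. -/
lemma eq_zero_of_bracket {P : Type*} [AddCommGroup P] [Module K P] {f : L →ₗ[K] P}
    (h : ∀ x y : L, f ⁅x, y⁆ = 0) : f = 0 := by
  ext x
  have hx : x ∈ (⁅(⊤ : LieIdeal K L), (⊤ : LieIdeal K L)⁆ : LieIdeal K L) := by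
    rw [lie_self_eq]; trivial
  rw [← LieSubmodule.mem_toSubmodule, LieSubmodule.lieIdeal_oper_eq_linear_span'] at hx
  induction hx using Submodule.span_induction with
  | mem u hu =>
    obtain ⟨a, -, b, -, rfl⟩ := hu
    simp [h]
  | zero => simp
  | add u v _ _ hu hv => simp only [LinearMap.zero_apply] at hu hv ⊢; simp [hu, hv]
  | smul t u _ hu => simp only [LinearMap.zero_apply] at hu ⊢; simp [hu]

variable {M : Type*} [AddCommGroup M] [Module K M] [LieRingModule L M] [LieModule K L M]
  [FiniteDimensional K M]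

/-- The annihilator of a module. -/
def annihilator (K L M : Type*) [Field K] [LieRing L] [LieAlgebra K L] [AddCommGroup M]
    [Module K M] [LieRingModule L M] [LieModule K L M] : LieIdeal K L :=
  (toEnd K L M).ker

omit [CharZero K] [FiniteDimensional K L] [HasTrivialRadical K L] [FiniteDimensional K M] in
lemma mem_annihilator {x : L} : x ∈ annihilator K L M ↔ ∀ m : M, ⁅x, m⁆ = 0 := by
  rw [annihilator, LieHom.mem_ker, LinearMap.ext_iff]
  rfl

/-- On an irreducible module the trace form is nondegenerate on the complement of the annihilator. -/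
lemma nondegenerate_restrict [LieModule.IsIrreducible K L M] :
    ((traceForm K L M).restrict (annihilator K L M).killingCompl.toSubmodule).Nondegenerate := by
  set I := annihilator K L M
  set J := I.killingCompl
  have hI : ∀ x ∈ I, ∀ z, traceForm K L M x z = 0 := fun x hx z => by
    rw [traceForm_apply_apply, show toEnd K L M x = 0 from hx, LinearMap.zero_comp, map_zero]
  have hdec : ∀ z : L, ∃ a ∈ I, ∃ c ∈ J, a + c = z := fun z => by
    rw [← LieSubmodule.mem_sup, I.isCompl_killingCompl.sup_eq_top]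
    trivial
  let R : LieIdeal K L :=
    { toSubmodule := J.toSubmodule ⊓ LinearMap.ker (traceForm K L M)
      lie_mem := fun {x m} hm => by
        obtain ⟨h1, h2⟩ := Submodule.mem_inf.1 hm
        refine Submodule.mem_inf.2 ⟨J.lie_mem h1, ?_⟩
        rw [LinearMap.mem_ker] at h2 ⊢
        ext z
        rw [traceForm_apply_lie_apply', h2]
        simp }
  have hR : R = ⊥ := by
    have htf : traceForm K R M = 0 := by
      ext ⟨x, hx⟩ ⟨y, hy⟩
      change traceForm K L M x y = 0
      rw [LinearMap.mem_ker.1 (Submodule.mem_inf.1 hx).2, LinearMap.zero_apply]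
    have hder : ∀ x : R, x ∈ derivedSeries K R 1 := fun x => by
      rw [LieIdeal.derivedSeries_eq_derivedSeriesOfIdeal_comap, derivedSeriesOfIdeal_succ,
        derivedSeriesOfIdeal_zero, lie_self_eq, LieIdeal.mem_comap]
      exact x.2
    have h1 := isNilpotent_derivedSeries_of_traceForm_eq_zero htf
    have hnil : LieModule.IsNilpotent R M := by
      rw [isNilpotent_iff_forall' (R := K)] at h1 ⊢
      exact fun x => h1 ⟨x, hder x⟩
    have := LieModule.nontrivial_of_isIrreducible K L M
    let N : LieSubmodule K L M :=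
      { toSubmodule := (maxTrivSubmodule K R M).toSubmodule
        lie_mem := fun {y m} hm r => by
          have h2 : ⁅(r : L), y⁆ ∈ R := lie_mem_left K L R _ y r.2
          show ⁅(r : L), ⁅y, m⁆⁆ = 0
          rw [leibniz_lie, show ⁅(r : L), m⁆ = 0 from hm r, lie_zero, add_zero]
          exact hm ⟨_, h2⟩ }
    have : Nontrivial N := nontrivial_max_triv_of_isNilpotent K R M
    have htop : N = ⊤ := N.eq_top_of_isIrreducible K L M
    rw [LieSubmodule.eq_bot_iff]
    intro r hr
    have hrI : r ∈ I := mem_annihilator.2 fun m => (htop ▸ trivial : m ∈ N) ⟨r, hr⟩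
    have hrJ : r ∈ J := (Submodule.mem_inf.1 hr).1
    have := LieSubmodule.mem_inf _ _ r |>.2 ⟨hrI, hrJ⟩
    rwa [I.isCompl_killingCompl.inf_eq_bot] at this
  have hsymm : ((traceForm K L M).restrict J.toSubmodule).IsRefl := fun x y h => by
    simpa [traceForm_comm K L M (y : L)] using h
  refine (LinearMap.IsRefl.nondegenerate_iff_separatingLeft hsymm).2 fun x hx => ?_
  have hxR : (x : L) ∈ R := by
    refine Submodule.mem_inf.2 ⟨x.2, LinearMap.mem_ker.2 (LinearMap.ext fun z => ?_)⟩
    obtain ⟨a, ha, c, hc, rfl⟩ := hdec z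
    rw [map_add, traceForm_comm K L M _ a, hI a ha, zero_add]
    simpa using hx ⟨c, hc⟩
  rw [hR] at hxR
  exact Subtype.ext hxR

/-- An invertible operator `∑ aᵢ cᵢ` with invariant `∑ aᵢ ⊗ cᵢ`. -/
lemma exists_casimir [LieModule.IsIrreducible K L M] (hne : ∃ (x : L) (m : M), ⁅x, m⁆ ≠ 0) :
    ∃ (ι : Type) (_ : Fintype ι) (a c : ι → L) (C : M ≃ₗ[K] M),
      (∀ m, C m = ∑ i, ⁅a i, ⁅c i, m⁆⁆) ∧
      (∀ (Φ : L →ₗ[K] L →ₗ[K] M) (x : L), ∑ i, (Φ ⁅x, a i⁆ (c i) + Φ (a i) ⁅x, c i⁆) = 0) ∧
      ∀ (x : L) (m : M), ⁅x, C m⁆ = C ⁅x, m⁆ := by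
  classical
  set I := annihilator K L M
  set J := I.killingCompl
  set B := (traceForm K L M).restrict J.toSubmodule
  have hB : B.Nondegenerate := nondegenerate_restrict
  have hsymm : ∀ u v : J.toSubmodule, B u v = B v u := fun u v =>
    traceForm_comm K L M (u : L) (v : L)
  let b := finBasis K J.toSubmodule
  let b' := B.dualBasis hB b
  have hδ : ∀ i j, B (b' i) (b j) = if j = i then 1 else 0 :=
    LinearMap.BilinForm.apply_dualBasis_left hB b
  have exp1 : ∀ u, ∑ j, B (b' j) u • b j = u := fun u => by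
    conv_rhs => rw [← b.sum_repr u]
    refine Finset.sum_congr rfl fun j _ => ?_
    congr 1
    conv_lhs => rw [← b.sum_repr u, map_sum]
    simp [hδ]
  have exp2 : ∀ u, ∑ j, B u (b j) • b' j = u := fun u => by
    conv_rhs => rw [← b'.sum_repr u]
    simp [b']
  let a : Fin (finrank K J.toSubmodule) → L := fun i => (b i : L)
  let c : Fin (finrank K J.toSubmodule) → L := fun i => (b' i : L)
  have hinv : ∀ (Φ : L →ₗ[K] L →ₗ[K] M) (x : L),
      ∑ i, (Φ ⁅x, a i⁆ (c i) + Φ (a i) ⁅x, c i⁆) = 0 := by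
    intro Φ x
    let ad : J.toSubmodule → J.toSubmodule := fun u => ⟨⁅x, (u : L)⁆, J.lie_mem u.2⟩
    have h1 : ∀ i, Φ ⁅x, a i⁆ (c i) = ∑ j, B (b' j) (ad (b i)) • Φ (a j) (c i) := fun i => by
      have e := congrArg Subtype.val (exp1 (ad (b i)))
      simp only [Submodule.coe_sum, Submodule.coe_smul] at e
      conv_lhs => rw [show ⁅x, a i⁆ = _ from e.symm]
      simp [map_sum, LinearMap.sum_apply, a, c]
    have h2 : ∀ i, Φ (a i) ⁅x, c i⁆ = ∑ j, B (ad (b' i)) (b j) • Φ (a i) (c j) := fun i => by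
      have e := congrArg Subtype.val (exp2 (ad (b' i)))
      simp only [Submodule.coe_sum, Submodule.coe_smul] at e
      conv_lhs => rw [show ⁅x, c i⁆ = _ from e.symm]
      simp [map_sum, a, c]
    rw [Finset.sum_add_distrib, Finset.sum_congr rfl fun i _ => h1 i,
      Finset.sum_congr rfl fun i _ => h2 i, Finset.sum_comm, ← Finset.sum_add_distrib]
    refine Finset.sum_eq_zero fun i _ => ?_
    rw [← Finset.sum_add_distrib]
    refine Finset.sum_eq_zero fun j _ => ?_
    rw [← add_smul]
    have : B (b' i) (ad (b j)) = -B (ad (b' i)) (b j) := by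
      show traceForm K L M (b' i : L) ⁅x, (b j : L)⁆ = -traceForm K L M ⁅x, (b' i : L)⁆ (b j : L)
      rw [traceForm_apply_lie_apply', neg_neg]
    rw [this, neg_add_cancel, zero_smul]
  let C₀ : M →ₗ[K] M := ∑ i, toEnd K L M (a i) ∘ₗ toEnd K L M (c i)
  have hC₀ : ∀ m, C₀ m = ∑ i, ⁅a i, ⁅c i, m⁆⁆ := fun m => by simp [C₀, LinearMap.sum_apply]
  have hcomm : ∀ (x : L) (m : M), ⁅x, C₀ m⁆ = C₀ ⁅x, m⁆ := by
    intro x m
    rw [hC₀, hC₀, lie_sum, ← sub_eq_zero, ← Finset.sum_sub_distrib]
    let Φ : L →ₗ[K] L →ₗ[K] M := LinearMap.mk₂ K (fun u v => ⁅u, ⁅v, m⁆⁆)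
      (fun u u' v => add_lie u u' _) (fun t u v => smul_lie t u _)
      (fun u v v' => by rw [add_lie, lie_add]) (fun t u v => by rw [smul_lie, lie_smul])
    refine Eq.trans (Finset.sum_congr rfl fun i _ => ?_) (hinv Φ x)
    simp only [Φ, LinearMap.mk₂_apply]
    rw [leibniz_lie x (a i), leibniz_lie x (c i), lie_add]
    abel
  have htr : LinearMap.trace K M C₀ = (finrank K J.toSubmodule : K) := by
    simp only [C₀, map_sum, ← traceForm_apply_apply]
    have : ∀ i, traceForm K L M (a i) (c i) = 1 := fun i => by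
      show B (b i) (b' i) = 1
      rw [hsymm, hδ, if_pos rfl]
    simp [this]
  have hJ : finrank K J.toSubmodule ≠ 0 := by
    intro h
    obtain ⟨x, m, hxm⟩ := hne
    have hJbot : J = ⊥ := LieSubmodule.toSubmodule_eq_bot _ |>.1 (Submodule.finrank_eq_zero.1 h)
    have htop := I.isCompl_killingCompl.sup_eq_top
    rw [show I.killingCompl = ⊥ from hJbot, sup_bot_eq] at htop
    exact hxm (mem_annihilator.1 (htop ▸ trivial : x ∈ I) m)
  let kerC : LieSubmodule K L M :=
    { toSubmodule := LinearMap.ker C₀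
      lie_mem := fun {x m} hm => by
        change C₀ ⁅x, m⁆ = 0
        rw [← hcomm, show C₀ m = 0 from hm, lie_zero] }
  have hinj : Function.Injective C₀ := by
    rcases IsSimpleOrder.eq_bot_or_eq_top kerC with h | h
    · rw [← LinearMap.ker_eq_bot]
      exact (LieSubmodule.toSubmodule_eq_bot kerC).2 h
    · exfalso
      have h0 : C₀ = 0 := LinearMap.ext fun m => (h ▸ trivial : m ∈ kerC)
      rw [h0, map_zero] at htr
      exact hJ (Nat.cast_eq_zero.1 htr.symm)
  let C := LinearEquiv.ofInjectiveEndo C₀ hinj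
  exact ⟨_, inferInstance, a, c, C, hC₀, hinv, hcomm⟩

end FA.WeylReducibility
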